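import Fermat.Agent.Koblitz.Obstruction
import Mathlib.NumberTheory.LSeries.PrimesInAP

/-!
# Curves with the obstruction at six and none at any one prime

For an integer `p` and `D = -27 p (p + 4)` the curve `y² = x³ + D (3 x - D p)²` has a point of order
three at `x = 0` moved through the character of `√D`, and discriminant `D` times a square. For
`p ≡ 12 mod 35` it has `9` points modulo five and `4` modulo seven, so no prime divides almost all
of its point counts; the invariants at such primes differ.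
-/

set_option autoImplicit false
set_option linter.style.haveILetI false
set_option linter.unusedSectionVars false

noncomputable section

open Matrix WeierstrassCurve WeierstrassCurve.Affine FA.EC FA.Frob FA.RT
open FA.RT.Tate (Pts)
open scoped WeierstrassCurve.Affine

local notation "Qb" => AlgebraicClosure ℚ
local notation "GQ" => AlgebraicClosure ℚ ≃ₐ[ℚ] AlgebraicClosure ℚ

namespace FA.Koblitz

/-- The square class of the discriminant of the family. -/
def familyD (p : ℤ) : ℤ := -27 * p * (p + 4)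

/-- The curve `y² = x³ + D (3 x - D p)²`. -/
def familyCurve (p : ℤ) : WeierstrassCurve ℤ :=
  ⟨0, 9 * familyD p, 0, -6 * familyD p ^ 2 * p, familyD p ^ 3 * p ^ 2⟩

theorem familyCurve_Δ (p : ℤ) :
    (familyCurve p).Δ = familyD p * (4 * familyD p ^ 3 * p) ^ 2 := by
  simp only [familyCurve, familyD, WeierstrassCurve.Δ, WeierstrassCurve.b₂, WeierstrassCurve.b₄,
    WeierstrassCurve.b₆, WeierstrassCurve.b₈]
  ring

theorem familyCurve_c₄ (p : ℤ) :
    (familyCurve p).c₄ = 144 * familyD p ^ 2 * (9 + 2 * p) := by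
  simp only [familyCurve, WeierstrassCurve.c₄, WeierstrassCurve.b₂, WeierstrassCurve.b₄]
  ring

theorem familyD_ne_zero {p : ℕ} (hp : p ≠ 0) : familyD (p : ℤ) ≠ 0 := by
  simp only [familyD, ne_eq, mul_eq_zero, not_or]
  omega

theorem familyCurve_Δ_ne_zero {p : ℕ} (hp : p ≠ 0) : (familyCurve (p : ℤ)).Δ ≠ 0 := by
  have hD := familyD_ne_zero hp
  rw [familyCurve_Δ]
  exact mul_ne_zero hD (pow_ne_zero _ (mul_ne_zero (mul_ne_zero (by norm_num) (pow_ne_zero _ hD))
    (Nat.cast_ne_zero.mpr hp)))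

/-- A point of order three moved through the character of the square class `k`, on
`y² = x³ + a x² + b x + c` at `x`. -/
theorem exists_threePoint {W : WeierstrassCurve ℤ} [(ratCurve W).IsElliptic] (h1 : W.a₁ = 0)
    (h3 : W.a₃ = 0) {x : ℤ} {k m : ℤ} (hΨ : W.Ψ₃.eval x = 0)
    (hk : x ^ 3 + W.a₂ * x ^ 2 + W.a₄ * x + W.a₆ = k * m ^ 2) :
    ∃ (P : Pts W) (s : Qb), P ≠ 0 ∧ 3 • P = 0 ∧ s ^ 2 = ((k : ℚ) : Qb) ∧
      ∀ σ : GQ, (σ s = s → σ • P = P) ∧ (σ s ≠ s → σ • P = -P) := by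
  obtain ⟨s, hs⟩ := IsAlgClosed.exists_pow_nat_eq ((k : ℚ) : Qb) (n := 2) two_pos
  have he : ((ratCurve W)⁄Qb).toAffine.Equation (x : Qb) ((m : Qb) * s) := by
    rw [Affine.equation_iff]
    have hk' := congrArg (Int.cast : ℤ → Qb) hk
    rw [Rat.cast_intCast] at hs
    push_cast at hk'
    simp [ratCurve, h1, h3, mul_pow, hs]
    linear_combination -hk'
  have hns := (Affine.equation_iff_nonsingular (W := ((ratCurve W)⁄Qb).toAffine)).mp he
  refine ⟨Affine.Point.some _ _ hns, s, Affine.Point.some_ne_zero _, three_nsmul_of_Ψ₃ hns ?_, hs,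
    fun σ => ?_⟩
  · have hmap : ((ratCurve W)⁄Qb) = W.map (Int.castRingHom Qb) := by
      show (W.map (Int.castRingHom ℚ)).map (algebraMap ℚ Qb) = _
      rw [WeierstrassCurve.map_map]
      congr 1
    rw [hmap, WeierstrassCurve.map_Ψ₃, ← eq_intCast (Int.castRingHom Qb) x,
      Polynomial.eval_map_apply, hΨ, map_zero]
  · obtain ⟨h', e⟩ := FA.Local.smul_some (σ := σ) (ratCurve W) hns
    refine ⟨fun hσ => ?_, fun hσ => ?_⟩
    · rw [e]
      simp only [map_intCast, map_mul, hσ]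
    · have hneg : σ s = -s :=
        (sq_eq_sq_iff_eq_or_eq_neg.mp (by rw [← map_pow, hs, map_ratCast])).resolve_left hσ
      rw [e, Affine.Point.neg_some]
      simp only [Affine.Point.some.injEq, map_intCast, map_mul, hneg, true_and]
      simp [Affine.negY, ratCurve, h1, h3]

/-- The family has its point counts divisible by two or by three. -/
theorem family_two_or_three {p : ℕ} (hp : p ≠ 0) {q : ℕ} (hq : q.Prime) (h2 : q ≠ 2) (h3 : q ≠ 3)
    (hgood : (familyCurve (p : ℤ)).IsGoodPrimeFor q) :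
    2 ∣ Nat.card ((familyCurve (p : ℤ)).map (Int.castRingHom (ZMod q))).toAffine.Point ∨
      3 ∣ Nat.card ((familyCurve (p : ℤ)).map (Int.castRingHom (ZMod q))).toAffine.Point := by
  haveI := ratCurve_isElliptic_of_Δ (familyCurve_Δ_ne_zero hp)
  obtain ⟨P, s, hP, hP3, hs, hact⟩ := exists_threePoint (W := familyCurve (p : ℤ)) (x := 0)
    (k := familyD p) (m := familyD p * p) rfl rfl
    (by simp [WeierstrassCurve.Ψ₃, familyCurve, WeierstrassCurve.b₈]; ring)
    (by simp [familyCurve]; ring)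
  exact two_or_three_dvd_pointCount hP hP3 hs hact
    ⟨((4 * familyD p ^ 3 * p : ℤ) : ℚ), Or.inl (by rw [familyCurve_Δ]; push_cast; ring)⟩
    hq h2 h3 hgood

/-- Points modulo a small prime from the affine count. -/
theorem natCard_point_eq {W : WeierstrassCurve ℤ} {q : ℕ} [Fact q.Prime] {b₁ b₂ b₃ b₄ b₆ : ZMod q}
    (h : W.reductionMod q = ⟨b₁, b₂, b₃, b₄, b₆⟩) :
    Nat.card (W.map (Int.castRingHom (ZMod q))).toAffine.Point =
      (FA.Ribet.nsPts b₁ b₂ b₃ b₄ b₆).card + 1 := by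
  have e := FA.Ribet.apOfModel_eq_nsPts h
  rw [apOfModel, traceOfFrobenius, WeierstrassCurve.card, Nat.card_zmod] at e
  have e' : Nat.card (W.map (Int.castRingHom (ZMod q))).toAffine.Point =
      Nat.card (W.reductionMod q).toAffine.Point := rfl
  omega

theorem nine_points_five : (FA.Ribet.nsPts (0 : ZMod 5) 4 0 3 4).card + 1 = 9 := by decide +kernel

theorem four_points_seven : (FA.Ribet.nsPts (0 : ZMod 7) 6 0 3 3).card + 1 = 4 := by decide +kernel

/-- The coefficients modulo five. -/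
theorem family_coeff_five : (-27 * 2 * (2 + 4) : ZMod 5) = 1 ∧
    (9 * 1 : ZMod 5) = 4 ∧ (-6 * 1 ^ 2 * 2 : ZMod 5) = 3 ∧ (1 ^ 3 * 2 ^ 2 : ZMod 5) = 4 ∧
    ((1 : ZMod 5) * (4 * 1 ^ 3 * 2) ^ 2 ≠ 0) := by decide

/-- The coefficients modulo seven. -/
theorem family_coeff_seven : (-27 * 5 * (5 + 4) : ZMod 7) = 3 ∧
    (9 * 3 : ZMod 7) = 6 ∧ (-6 * 3 ^ 2 * 5 : ZMod 7) = 3 ∧ (3 ^ 3 * 5 ^ 2 : ZMod 7) = 3 ∧
    ((3 : ZMod 7) * (4 * 3 ^ 3 * 5) ^ 2 ≠ 0) := by decide

/-- **Modulo five and seven** at `p ≡ 12 mod 35`. -/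
theorem family_points {p : ℕ} (hp : p % 35 = 12) :
    ((familyCurve (p : ℤ)).IsGoodPrimeFor 5 ∧
      Nat.card ((familyCurve (p : ℤ)).map (Int.castRingHom (ZMod 5))).toAffine.Point = 9) ∧
    ((familyCurve (p : ℤ)).IsGoodPrimeFor 7 ∧
      Nat.card ((familyCurve (p : ℤ)).map (Int.castRingHom (ZMod 7))).toAffine.Point = 4) := by
  have h5 : (p : ZMod 5) = 2 := by
    rw [← ZMod.natCast_mod, show p % 5 = 2 by omega]; rfl
  have h7 : (p : ZMod 7) = 5 := by
    rw [← ZMod.natCast_mod, show p % 7 = 5 by omega]; rfl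
  haveI : Fact (Nat.Prime 5) := ⟨by norm_num⟩
  haveI : Fact (Nat.Prime 7) := ⟨by norm_num⟩
  obtain ⟨e5, a5, c5, g5, n5⟩ := family_coeff_five
  obtain ⟨e7, a7, c7, g7, n7⟩ := family_coeff_seven
  have d5 : (familyD (p : ℤ) : ZMod 5) = 1 := by
    rw [familyD]; push_cast; rw [h5]; exact e5
  have d7 : (familyD (p : ℤ) : ZMod 7) = 3 := by
    rw [familyD]; push_cast; rw [h7]; exact e7
  refine ⟨⟨?_, ?_⟩, ⟨?_, ?_⟩⟩
  · intro hd
    rw [← ZMod.intCast_zmod_eq_zero_iff_dvd, familyCurve_Δ] at hd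
    push_cast at hd
    rw [d5, h5] at hd
    exact n5 hd
  · rw [natCard_point_eq (b₁ := 0) (b₂ := 4) (b₃ := 0) (b₄ := 3) (b₆ := 4) (by
      ext <;> simp only [reductionMod, familyCurve, WeierstrassCurve.map_a₁,
        WeierstrassCurve.map_a₂, WeierstrassCurve.map_a₃, WeierstrassCurve.map_a₄,
        WeierstrassCurve.map_a₆, eq_intCast] <;>
        push_cast <;> (try rw [d5]) <;> (try rw [h5]) <;> first | rfl | assumption)]
    exact nine_points_five
  · intro hd
    rw [← ZMod.intCast_zmod_eq_zero_iff_dvd, familyCurve_Δ] at hd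
    push_cast at hd
    rw [d7, h7] at hd
    exact n7 hd
  · rw [natCard_point_eq (b₁ := 0) (b₂ := 6) (b₃ := 0) (b₄ := 3) (b₆ := 3) (by
      ext <;> simp only [reductionMod, familyCurve, WeierstrassCurve.map_a₁,
        WeierstrassCurve.map_a₂, WeierstrassCurve.map_a₃, WeierstrassCurve.map_a₄,
        WeierstrassCurve.map_a₆, eq_intCast] <;>
        push_cast <;> (try rw [d7]) <;> (try rw [h7]) <;> first | rfl | assumption)]
    exact four_points_seven

/-- No prime divides almost all the point counts. -/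
theorem family_infinite_not_dvd {p : ℕ} (hp0 : p ≠ 0) (hp : p % 35 = 12) {l : ℕ} (hl : l.Prime) :
    {q : ℕ | q.Prime ∧ (familyCurve (p : ℤ)).IsGoodPrimeFor q ∧
      ¬ l ∣ Nat.card ((familyCurve (p : ℤ)).map
        (Int.castRingHom (ZMod q))).toAffine.Point}.Infinite := by
  haveI := ratCurve_isElliptic_of_Δ (familyCurve_Δ_ne_zero hp0)
  haveI := Fact.mk hl
  obtain ⟨⟨g5, n5⟩, g7, n7⟩ := family_points hp
  by_cases h5 : l = 3 ∨ l = 5
  · refine infinite_not_dvd_of_one (q₀ := 7) (by norm_num) (by omega) g7 ?_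
    rw [n7]
    rcases h5 with rfl | rfl <;> norm_num
  · refine infinite_not_dvd_of_one (q₀ := 5) (by norm_num) (fun e => h5 (Or.inr e.symm)) g5 ?_
    rw [n5]
    intro hd
    refine h5 (Or.inl ((Nat.prime_dvd_prime_iff_eq hl Nat.prime_three).mp
      (hl.dvd_of_dvd_pow (show l ∣ 3 ^ 2 from hd))))

/-- **The invariants differ.** -/
theorem family_j_injective {p p' : ℕ} (hp : p.Prime) (hp' : p'.Prime) (h35 : p % 35 = 12)
    (h35' : p' % 35 = 12)
    (he : ((familyCurve (p : ℤ)).c₄ : ℚ) ^ 3 / (familyCurve (p : ℤ)).Δ =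
      ((familyCurve (p' : ℤ)).c₄ : ℚ) ^ 3 / (familyCurve (p' : ℤ)).Δ) : p = p' := by
  have red : ∀ r : ℕ, r ≠ 0 → ((familyCurve (r : ℤ)).c₄ : ℚ) ^ 3 / (familyCurve (r : ℤ)).Δ =
      186624 * (9 + 2 * (r : ℚ)) ^ 3 / (familyD r * (r : ℚ) ^ 2) := fun r hr => by
    have hD : (familyD r : ℚ) ≠ 0 := Int.cast_ne_zero.mpr (familyD_ne_zero hr)
    rw [familyCurve_c₄, familyCurve_Δ]
    push_cast
    field_simp
    ring
  rw [red p hp.ne_zero, red p' hp'.ne_zero, familyD, familyD] at he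
  push_cast at he
  have hp0 : (0 : ℚ) < p := by exact_mod_cast hp.pos
  have hp0' : (0 : ℚ) < p' := by exact_mod_cast hp'.pos
  rw [div_eq_div_iff (by
      refine mul_ne_zero (mul_ne_zero (mul_ne_zero (by norm_num) hp0.ne') ?_) (by positivity)
      positivity) (by
      refine mul_ne_zero (mul_ne_zero (mul_ne_zero (by norm_num) hp0'.ne') ?_) (by positivity)
      positivity)] at he
  have hn : (9 + 2 * p) ^ 3 * p' ^ 3 * (p' + 4) = (9 + 2 * p') ^ 3 * p ^ 3 * (p + 4) := by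
    have : ((9 + 2 * p : ℕ) : ℚ) ^ 3 * (p' : ℚ) ^ 3 * ((p' : ℚ) + 4) =
        ((9 + 2 * p' : ℕ) : ℚ) ^ 3 * (p : ℚ) ^ 3 * ((p : ℚ) + 4) := by
      push_cast
      linear_combination (-1 / 5038848 : ℚ) * he
    exact_mod_cast this
  -- the larger of two primes of the family divides too little of the other side
  have key : ∀ a b : ℕ, a.Prime → b.Prime → a % 35 = 12 → b % 35 = 12 → a < b →
      ¬ b ∣ (9 + 2 * b) ^ 3 * a ^ 3 * (a + 4) := fun a b ha hb h h' hlt hd => by
    rcases (Nat.Prime.dvd_mul hb).mp hd with h1 | h1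
    · rcases (Nat.Prime.dvd_mul hb).mp h1 with h2 | h2
      · have h3 : b ∣ 9 := (Nat.dvd_add_left (dvd_mul_left b 2)).mp (hb.dvd_of_dvd_pow h2)
        have := Nat.le_of_dvd (by norm_num) h3
        omega
      · have := (Nat.prime_dvd_prime_iff_eq hb ha).mp (hb.dvd_of_dvd_pow h2)
        omega
    · have := Nat.le_of_dvd (by omega) h1
      omega
  rcases lt_trichotomy p p' with h | h | h
  · refine absurd ?_ (key p p' hp hp' h35 h35' h)
    exact ⟨(9 + 2 * p) ^ 3 * p' ^ 2 * (p' + 4), by rw [← hn]; ring⟩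
  · exact h
  · refine absurd ?_ (key p' p hp' hp h35' h35 h)
    exact ⟨(9 + 2 * p') ^ 3 * p ^ 2 * (p + 4), by rw [hn]; ring⟩

end FA.Koblitz

end
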