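import Fermat.Agent.SerreCurve.EntangledParam
import Fermat.Agent.Root.SummaryTraces
import Fermat.Agent.EC.MulFormula

/-!
# The obstruction at six to prime point counts

If a point of order three is moved by Galois through the character of `√e` and the discriminant is
`e` or `-3 e` up to squares, a Frobenius element cannot avoid the eigenvalue one both on `E[2]` and
on `E[3]`: avoiding it on `E[2]` fixes `√Δ`, avoiding it on `E[3]` negates `√e` and fixes `√-3`.
-/

set_option autoImplicit false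
set_option linter.style.haveILetI false
set_option linter.unusedSectionVars false

noncomputable section

open Matrix WeierstrassCurve WeierstrassCurve.Affine FA.EC FA.Frob FA.RT
open FA.RT.Tate (Pts)
open FA.Two (deltaRoot sgn)
open scoped WeierstrassCurve.Affine

local notation "Qb" => AlgebraicClosure ℚ
local notation "GQ" => AlgebraicClosure ℚ ≃ₐ[ℚ] AlgebraicClosure ℚ
local notation "M2" => Matrix (Fin 2) (Fin 2)

namespace FA.Koblitz

theorem sgn_of_det_sub_one : ∀ M : M2 (ZMod 2), M.det ≠ 0 → (M - 1).det ≠ 0 → sgn M = 0 := by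
  intro M hM
  rcases FA.Two.six_cases hM with rfl | rfl | rfl | rfl | rfl | rfl <;> decide

/-- Modulo three an eigenvalue minus one and determinant minus one give the eigenvalue one. -/
theorem det_sub_one_three : ∀ M : M2 (ZMod 3), (M + 1).det = 0 → M.det = 2 → (M - 1).det = 0 := by
  intro M h h2
  have e : (M + 1).det = M.det + M.trace + 1 := by simp [det_fin_two, trace_fin_two]; ring
  rw [e, h2] at h
  rw [FA.Traces.det_sub_one, h2]
  revert h
  generalize M.trace = t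
  revert t
  decide

variable {W : WeierstrassCurve ℤ} [(ratCurve W).IsElliptic]

/-- An element negating a point of order three has the eigenvalue minus one on `E[3]`. -/
theorem det_add_one_of_neg {σ : GQ} {P : Pts W} (hP : P ≠ 0) (h3 : 3 • P = 0)
    (hσ : σ • P = -P) : (curveRep 3 W σ + 1).det = 0 := by
  let x : Submodule.torsionBy ℤ ((ratCurve W)⁄Qb).Point (3 : ℕ) :=
    ⟨P, by rw [Submodule.mem_torsionBy_iff, natCast_zsmul]; exact h3⟩
  set v := (torsBasis (p := 3) W).equivFun x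
  refine exists_mulVec_eq_zero_iff.mp ⟨v, fun e => hP ?_, ?_⟩
  · exact congrArg Subtype.val ((LinearEquiv.map_eq_zero_iff _).mp e)
  · rw [add_mulVec, one_mulVec, toMatrix_mulVec, show (σ • x : Submodule.torsionBy ℤ
      ((ratCurve W)⁄Qb).Point (3 : ℕ)) = -x from Subtype.ext hσ, map_neg, neg_add_cancel]

/-- An element fixing a point of order three has the eigenvalue one on `E[3]`. -/
theorem det_sub_one_of_fix {σ : GQ} {P : Pts W} (hP : P ≠ 0) (h3 : 3 • P = 0)
    (hσ : σ • P = P) : (curveRep 3 W σ - 1).det = 0 := by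
  let x : Submodule.torsionBy ℤ ((ratCurve W)⁄Qb).Point (3 : ℕ) :=
    ⟨P, by rw [Submodule.mem_torsionBy_iff, natCast_zsmul]; exact h3⟩
  set v := (torsBasis (p := 3) W).equivFun x
  refine exists_mulVec_eq_zero_iff.mp ⟨v, fun e => hP ?_, ?_⟩
  · exact congrArg Subtype.val ((LinearEquiv.map_eq_zero_iff _).mp e)
  · rw [sub_mulVec, one_mulVec, toMatrix_mulVec, show (σ • x : Submodule.torsionBy ℤ
      ((ratCurve W)⁄Qb).Point (3 : ℕ)) = x from Subtype.ext hσ, sub_self]

/-- **No Galois element avoids the eigenvalue one at two and at three.** -/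
theorem eigenvalue_one_two_or_three {P : Pts W} (hP : P ≠ 0) (h3 : 3 • P = 0) {e : ℚ} {s : Qb}
    (hs : s ^ 2 = (e : Qb))
    (hact : ∀ σ : GQ, (σ s = s → σ • P = P) ∧ (σ s ≠ s → σ • P = -P))
    (hdisc : ∃ r : ℚ, (W.Δ : ℚ) = e * r ^ 2 ∨ (W.Δ : ℚ) = -3 * e * r ^ 2) (σ : GQ) :
    (curveRep 2 W σ - 1).det = 0 ∨ (curveRep 3 W σ - 1).det = 0 := by
  by_contra hcon
  rw [not_or] at hcon
  obtain ⟨h2, h3'⟩ := hcon
  have hfix : σ (deltaRoot W) = deltaRoot W := (FA.Two.apply_deltaRoot W σ).1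
    (sgn_of_det_sub_one _ (FA.Two.det_curveRep_two_ne W σ) h2)
  have hne : σ s ≠ s := fun e' => h3' (det_sub_one_of_fix hP h3 ((hact σ).1 e'))
  have hneg : σ s = -s :=
    (sq_eq_sq_iff_eq_or_eq_neg.mp (by rw [← map_pow, hs, map_ratCast])).resolve_left hne
  have hdet : (curveRep 3 W σ).det = 1 := by
    have h0 := FA.SerreCurve.det_curveRep_three_ne (W := W) σ
    have h2' : (curveRep 3 W σ).det ≠ 2 := fun hd =>
      h3' (det_sub_one_three _ (det_add_one_of_neg hP h3 ((hact σ).2 hne)) hd)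
    revert h0 h2'
    generalize (curveRep 3 W σ).det = t
    revert t
    decide
  obtain ⟨ω, hω⟩ := HasEnoughRootsOfUnity.exists_primitiveRoot Qb 3
  have hσω : σ ω = ω := by
    rw [FA.SerreCurve.apply_cube_root (W := W) σ hω.pow_eq_one, hdet, ZMod.val_one, pow_one]
  have hω2 : (2 * ω + 1) ^ 2 = -3 := by
    have h := hω.geom_sum_eq_zero (by norm_num : 1 < 3)
    simp only [Finset.sum_range_succ, Finset.sum_range_zero] at h
    linear_combination 4 * h
  obtain ⟨r, hr⟩ := hdisc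
  obtain ⟨t, ht, htσ⟩ : ∃ t : Qb, deltaRoot W ^ 2 = ((r : Qb) * t) ^ 2 ∧ σ t = -t := by
    rcases hr with hr | hr
    · refine ⟨s, ?_, hneg⟩
      rw [FA.Two.deltaRoot_sq, mul_pow, hs, ← Rat.cast_intCast, hr]
      push_cast
      ring
    · refine ⟨(2 * ω + 1) * s, ?_, by simp [hσω, hneg, map_mul, map_add, map_ofNat]⟩
      rw [FA.Two.deltaRoot_sq, mul_pow, mul_pow, hω2, hs, ← Rat.cast_intCast, hr]
      push_cast
      ring
  refine FA.Two.neg_ne_self (FA.SerreCurve.deltaRoot_ne_zero (W := W)) ?_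
  rcases sq_eq_sq_iff_eq_or_eq_neg.mp ht with h | h
  · rw [h, map_mul, map_ratCast, htσ, mul_neg, ← h] at hfix; exact hfix
  · rw [h, map_neg, map_mul, map_ratCast, htσ, mul_neg, neg_neg] at hfix
    rw [h, neg_neg]
    exact hfix

/-- **Every point count is divisible by two or by three.** -/
theorem two_or_three_dvd_pointCount {P : Pts W} (hP : P ≠ 0) (h3 : 3 • P = 0) {e : ℚ} {s : Qb}
    (hs : s ^ 2 = (e : Qb))
    (hact : ∀ σ : GQ, (σ s = s → σ • P = P) ∧ (σ s ≠ s → σ • P = -P))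
    (hdisc : ∃ r : ℚ, (W.Δ : ℚ) = e * r ^ 2 ∨ (W.Δ : ℚ) = -3 * e * r ^ 2)
    {q : ℕ} (hq : q.Prime) (h2q : q ≠ 2) (h3q : q ≠ 3) (hgood : W.IsGoodPrimeFor q) :
    2 ∣ Nat.card (W.map (Int.castRingHom (ZMod q))).toAffine.Point ∨
      3 ∣ Nat.card (W.map (Int.castRingHom (ZMod q))).toAffine.Point := by
  obtain ⟨A, hA⟩ := FA.Deform.exists_liesOverPrime hq
  obtain ⟨σ, hσ⟩ := FA.Deform.exists_isFrobeniusAt hq hA
  rw [FA.Traces.dvd_card_iff (l := 2) hq h2q hgood hA hσ,
    FA.Traces.dvd_card_iff (l := 3) hq h3q hgood hA hσ]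
  exact eigenvalue_one_two_or_three hP h3 hs hact hdisc σ

/-- **One good prime with `l ∤ #E` gives infinitely many.** -/
theorem infinite_not_dvd_of_one {l : ℕ} [Fact l.Prime] {q₀ : ℕ} (hq₀ : q₀.Prime) (hne : q₀ ≠ l)
    (hgood : W.IsGoodPrimeFor q₀)
    (hnd : ¬ l ∣ Nat.card (W.map (Int.castRingHom (ZMod q₀))).toAffine.Point) :
    {q : ℕ | q.Prime ∧ W.IsGoodPrimeFor q ∧
      ¬ l ∣ Nat.card (W.map (Int.castRingHom (ZMod q))).toAffine.Point}.Infinite := by
  intro hfin
  obtain ⟨A₀, hA₀⟩ := FA.Deform.exists_liesOverPrime hq₀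
  obtain ⟨σ₀, hσ₀⟩ := FA.Deform.exists_isFrobeniusAt hq₀ hA₀
  rw [FA.Traces.dvd_card_iff hq₀ hne hgood hA₀ hσ₀] at hnd
  obtain ⟨q, A, σ, hq, hqS, hql, hg, hA, hσ, ⟨n, hn⟩, -⟩ :=
    FA.Traces.exists_frobenius (l := l) (W := W) σ₀ hfin.toFinset
  refine hqS (hfin.mem_toFinset.mpr ⟨hq, hg, fun hd => hnd ?_⟩)
  rw [FA.Traces.dvd_card_iff hq hql hg hA hσ] at hd
  obtain ⟨v, hv, hfix⟩ := exists_mulVec_eq_zero_iff.mpr hd
  refine exists_mulVec_eq_zero_iff.mp ⟨v, hv, ?_⟩
  rw [sub_mulVec, one_mulVec, sub_eq_zero] at hfix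
  rw [sub_mulVec, one_mulVec, sub_eq_zero, hn]
  clear hn
  induction n with
  | zero => rw [pow_zero, one_mulVec]
  | succ m ih => rw [pow_succ, ← mulVec_mulVec, hfix, ih]

/-- A point with `3 • P = 0` from the third division polynomial. -/
theorem three_nsmul_of_Ψ₃ {x y : Qb} (h : ((ratCurve W)⁄Qb).toAffine.Nonsingular x y)
    (h0 : ((ratCurve W)⁄Qb).Ψ₃.eval x = 0) :
    3 • (Affine.Point.some x y h : Pts W) = 0 :=
  (nsmul_eq_zero_iff h 3).mpr (by simp [h0])

end FA.Koblitz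

end
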